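import Fermat.Agent.LT.T6.Spec

/-!
# Row LT, tower T6, leaf T6.12 `FLHypC` (fundamental lemma, `γ` hyperbolic): SUB-SPEC (helper288)

OFF-MAIN.  Definitions + frozen sub-leaf Props + the PROVED top `flHyp_of_leaves`
(file `HypTop.lean`).  Mathlib + `T6/Spec.lean` (helper22, sha256 `89f8f8b8…`) only.

## The computation ([L] §5, hyperbolic case; unramified `k'/k` of degree `l`, `Q = q ^ l`)

* `γ` regular with an eigenvalue in `k`, `N δ ∼ γ`: after (`s`-)conjugation `γ = diag(t₁, t₂)`,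
  `δ = diag(d₁, d₂)`, `N d_j = t_j`, `t₁ ≠ t₂` (`DiagReduceC`).
* Iwasawa decomposition + the twisted centraliser `T(k)` of `δ`: the classes of the `s`-conjugacy
  class of `δ` modulo `s`-conjugation by `U = GL₂(𝒪')` are the `y_b = n(b)⁻¹ δ s(n(b))
  = [[d₁, d₁ s(b) - d₂ b], [0, d₂]]`, `b ∈ k'/𝒪'` modulo multiplication by `𝒪^×`, and the weight
  `[T_y^c : T_y^c ∩ U]` is the length of the orbit: the orbit sum is the plain sum over
  `b ∈ k'/𝒪'` (`OrbitParamC`).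
* `cartan [[d₁, u], [0, d₂]] = (m₁ + m₂ - j, j)`, `j = min(m₁, m₂, ord u)` (`CartanUpperC`).
* THE JACOBIAN: `#{b ∈ k'/𝒪' : d₁ s(b) - d₂ b ∈ ϖ^j 𝒪'} = q ^ (ord(t₁ - t₂) - l j)` for
  `j ≤ min(m₁, m₂)` (`IndexC`; this is `[𝒪' : (s - c)𝒪'] = [𝒪 : (1 - N c)𝒪]`).
* hence `TO_δ(φ) = q ^ ord(t₁ - t₂) · constTerm Q φ m₁ m₂` (`LayerCountC`), where
  `constTerm Q φ m = ∑_λ φ(λ) · ctWeight Q λ m` is (up to `Q^{(m₁+m₂)/2}`) the coefficient of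
  `x^{m₁} y^{m₂}` in the Satake transform of `φ` (`SatClosedC`: Macdonald's formula for `GL₂`).
* `IsBC` + comparison of the coefficients of Laurent polynomials:
  `constTerm q f (l m₁) (l m₂) = constTerm Q φ m₁ m₂` (`CoeffCompareC`).
* the untwisted side is the instance `k' = k`, `l = 1`, `s = id` of the same statements.
-/

set_option autoImplicit false

open scoped Matrix

noncomputable section

namespace Fermat.Agent.LT.T6.H288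

open Fermat.Agent.LT.T6

/-! ## Definitions -/

/-- The additive valuation `ord x = - log v(x)` (`ord 0 = 0` by the convention of
`WithZero.log`). -/
def ordv {k : Type} [Field k] [Valued k Γ₀] (x : k) : ℤ := - WithZero.log (Valued.v x)

/-- The norm `d · s(d) ⋯ s^{n-1}(d)` in a field with an automorphism (`fNorm s 0 d = 1`). -/
def fNorm {k' : Type} [Field k'] (s : k' ≃+* k') : ℕ → k' → k'
  | 0, _ => 1
  | (n + 1), d => d * s (fNorm s n d)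

/-- The weight of `λ` in the constant term at `(m₁, m₂)` (residue field of `Q` elements):
`Q^{-λ₂}` if `min(m₁, m₂) = λ₂`, `Q^{-λ₂} (1 - Q⁻¹)` if `min(m₁, m₂) > λ₂`, and `0` unless
`λ₁ + λ₂ = m₁ + m₂` and `λ₂ ≤ min(m₁, m₂)`. -/
def ctWeight (Q : ℕ) (lam : ℤ × ℤ) (m₁ m₂ : ℤ) : ℂ :=
  if lam.1 + lam.2 = m₁ + m₂ ∧ lam.2 ≤ min m₁ m₂ then
    (Q : ℂ) ^ (-lam.2) * (if lam.2 = min m₁ m₂ then 1 else 1 - (Q : ℂ)⁻¹)
  else 0

/-- The (normalised) constant term of the spherical function `φ` at `diag(ϖ^{m₁}, ϖ^{m₂})`: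
`Q^{-m₁} ∫_N φ(diag(ϖ^{m₁}, ϖ^{m₂}) n) dn`. -/
def constTerm (Q : ℕ) (φ : (ℤ × ℤ) →₀ ℂ) (m₁ m₂ : ℤ) : ℂ :=
  φ.sum fun lam c => c * ctWeight Q lam m₁ m₂

/-- `B` is a full system of representatives of `k / 𝒪`. -/
def IsReprSet {k : Type} [Field k] [Valued k Γ₀] (B : Set k) : Prop :=
  ∀ x : k, ∃! b : k, b ∈ B ∧ Valued.v (x - b) ≤ 1

open Classical in
/-- The layer of `u` relative to `(m₁, m₂)`: `min(m₁, m₂, ord u)` (`ord 0 = ∞`). -/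
def layerOf {k : Type} [Field k] [Valued k Γ₀] (m₁ m₂ : ℤ) (u : k) : ℤ :=
  if u = 0 then min m₁ m₂ else min (min m₁ m₂) (ordv u)

/-! ## The sub-leaves -/

/-- **T6.12a (Macdonald's formula for `GL₂`; pure algebra).**  Closed form of the Satake
polynomial of `λ = (λ₁, λ₂)`, `n = λ₁ - λ₂`:
`satake q λ x y = q^{(λ₁+λ₂)/2} ∑_{j=0}^{n} ctWeight q λ (λ₂ + j, λ₁ - j) x^{λ₂+j} y^{λ₁-j}`
(`= (xy)^{λ₂} q^{n/2} (xⁿ + yⁿ + (1 - q⁻¹) ∑_{0<j<n} x^j y^{n-j})`).  Induction on `n` along the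
recursion of `satPoly`. -/
def SatClosedC : Prop :=
  ∀ q : ℕ, 1 < q → ∀ lam : ℤ × ℤ, lam.2 ≤ lam.1 → ∀ x y : ℂ, x ≠ 0 → y ≠ 0 →
    satake q lam x y =
      ∑ j ∈ Finset.range ((lam.1 - lam.2).toNat + 1),
        ((Real.sqrt q : ℝ) : ℂ) ^ (lam.1 + lam.2) *
          ctWeight q lam (lam.2 + (j : ℤ)) (lam.1 - (j : ℤ)) *
          x ^ (lam.2 + (j : ℤ)) * y ^ (lam.1 - (j : ℤ))

/-- **T6.12b (comparison of coefficients; pure algebra).**  If `f = b(φ)` then the constant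
term of `f` at `(l m₁, l m₂)` is the constant term of `φ` at `(m₁, m₂)`.  (`SatClosedC` for `q`
and `q ^ l`, `√(q^l) = (√q)^l`, linear independence of the monomials `x^a y^b` on `(ℂ^×)²`.) -/
def CoeffCompareC : Prop :=
  ∀ l q : ℕ, 0 < l → 1 < q → ∀ φ f : (ℤ × ℤ) →₀ ℂ, IsDominant φ → IsDominant f →
    IsBC l q φ f →
    ∀ m₁ m₂ : ℤ, constTerm q f ((l : ℤ) * m₁) ((l : ℤ) * m₂) = constTerm (q ^ l) φ m₁ m₂

/-- **T6.12c (reduction to the diagonal; algebra over fields).**  `γ` regular with an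
eigenvalue in `K`, `N δ` conjugate to `γ`: then `γ` is conjugate to `diag(t₁, t₂)`, `t₁ ≠ t₂`,
and `δ` is `s`-conjugate to `diag(d₁, d₂)` with `N d_j = t_j`.  (Diagonalise `γ`; move `N δ` to
`diag(t₁, t₂)` by `N(x⁻¹ δ s(x)) = x⁻¹ N(δ) x`; `δ` commutes with `N δ`, hence is diagonal.) -/
def DiagReduceC : Prop :=
  ∀ (K K' : Type) [Field K] [Field K'] (l : ℕ) (i : K →+* K') (s : K' ≃+* K'),
    IsCyclicData K K' l i s →
    ∀ (δ : GL (Fin 2) K') (γ : GL (Fin 2) K), IsReg γ →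
      (∃ x : K, x ^ 2 - (γ : Matrix (Fin 2) (Fin 2) K).trace * x
        + (γ : Matrix (Fin 2) (Fin 2) K).det = 0) →
      IsConj (twNorm s l δ) (Matrix.GeneralLinearGroup.map i γ) →
      ∃ (d₁ d₂ : K') (t₁ t₂ : K) (δ₀ : GL (Fin 2) K') (γ₀ : GL (Fin 2) K),
        t₁ ≠ t₂ ∧ d₁ ≠ 0 ∧ d₂ ≠ 0 ∧
        (δ₀ : Matrix (Fin 2) (Fin 2) K') = !![d₁, 0; 0, d₂] ∧
        (γ₀ : Matrix (Fin 2) (Fin 2) K) = !![t₁, 0; 0, t₂] ∧
        fNorm s l d₁ = i t₁ ∧ fNorm s l d₂ = i t₂ ∧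
        IsTwConj s δ δ₀ ∧ IsConj γ γ₀

/-- **T6.12d (Iwasawa decomposition).**  `GL₂(k) = B(k) GL₂(𝒪)`. -/
def IwasawaC : Prop :=
  ∀ (k : Type) [Field k] [Valued k Γ₀] (q : ℕ), IsLocalField k q →
    ∀ g : GL (Fin 2) k, ∃ (p κ : GL (Fin 2) k) (a b u : k),
      (p : Matrix (Fin 2) (Fin 2) k) = !![a, u; 0, b] ∧ InU 0 κ ∧ g = p * κ

/-- **T6.12e (parametrisation of the orbit sum).**  For `δ₀ = diag(d₁, d₂)` with
`N d₁ ≠ N d₂` and a function `Φ` which is bi-invariant under `U = GL₂(𝒪')`: the twisted orbit sum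
of `Φ` at `δ₀` is the sum of `Φ` over the `y_b = [[d₁, d₁ s(b) - d₂ b], [0, d₂]]`, `b` in a
full system of representatives of `k'/𝒪'` (in particular only finitely many terms are not zero).
(Iwasawa; the twisted centraliser of `δ₀` is the diagonal torus of `GL₂(k)`; the `U`-`s`-classes
are the orbits of `𝒪^×` on `k'/𝒪'`; the weight `cIndex` is the length of the orbit.) -/
def OrbitParamC : Prop :=
  ∀ (k k' : Type) [Field k] [Field k'] [Valued k Γ₀] [Valued k' Γ₀] (q l : ℕ)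
    (i : k →+* k') (s : k' ≃+* k'),
    IsLocalField k q → IsLocalField k' (q ^ l) → IsLocalExt k k' l 1 i s →
    ∀ (Φ : GL (Fin 2) k' → ℂ), IsBiInv (InU 0) Φ →
    ∀ (d₁ d₂ : k') (δ₀ : GL (Fin 2) k'),
      (δ₀ : Matrix (Fin 2) (Fin 2) k') = !![d₁, 0; 0, d₂] →
      fNorm s l d₁ ≠ fNorm s l d₂ →
      ∀ c : ℂ, IsTwOrbSum s 0 Φ δ₀ c →
      ∀ (B : Set k') (Y : k' → GL (Fin 2) k'), IsReprSet B →
        (∀ b : k', (Y b : Matrix (Fin 2) (Fin 2) k') = !![d₁, d₁ * s b - d₂ * b; 0, d₂]) →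
        c = ∑ᶠ b ∈ B, Φ (Y b)

/-- **T6.12f (Cartan invariant of an upper triangular matrix).** -/
def CartanUpperC : Prop :=
  ∀ (k : Type) [Field k] [Valued k Γ₀] (g : GL (Fin 2) k) (a b u : k),
    (g : Matrix (Fin 2) (Fin 2) k) = !![a, u; 0, b] →
    cartan g = (ordv a + ordv b - layerOf (ordv a) (ordv b) u, layerOf (ordv a) (ordv b) u)

/-- **T6.12g (THE JACOBIAN of `b ↦ d₁ s(b) - d₂ b`).**  For `j ≤ min(ord d₁, ord d₂)` the number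
of classes `b ∈ k'/𝒪'` with `d₁ s(b) - d₂ b ∈ ϖ^j 𝒪'` is `q ^ (ord(t₁ - t₂) - l j)`, where
`t_j = N d_j`.  (Equivalent to `[𝒪' : (s - c)𝒪'] = [𝒪 : (1 - N c)𝒪]` for `c ∈ 𝒪'`, `N c ≠ 1`;
e.g. `P ∘ (s - c) = 1 - N c` with `P = ∑_j e_j s^j`, `e_{l-1} = 1`, `e_{j-1} = e_j s^j(c)`, or
`det_k (s - c) = ± (1 - N c)`.) -/
def IndexC : Prop :=
  ∀ (k k' : Type) [Field k] [Field k'] [Valued k Γ₀] [Valued k' Γ₀] (q l : ℕ)
    (i : k →+* k') (s : k' ≃+* k'),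
    IsLocalField k q → IsLocalField k' (q ^ l) → IsLocalExt k k' l 1 i s →
    ∀ (d₁ d₂ : k') (t₁ t₂ : k), d₁ ≠ 0 → d₂ ≠ 0 → t₁ ≠ t₂ →
      fNorm s l d₁ = i t₁ → fNorm s l d₂ = i t₂ →
      ∀ B : Set k', IsReprSet B →
      ∀ j : ℤ, j ≤ min (ordv d₁) (ordv d₂) →
        {b : k' | b ∈ B ∧ (d₁ * s b - d₂ * b = 0 ∨ j ≤ ordv (d₁ * s b - d₂ * b))}.Finite ∧
        (Set.ncard {b : k' | b ∈ B ∧
            (d₁ * s b - d₂ * b = 0 ∨ j ≤ ordv (d₁ * s b - d₂ * b))} : ℂ)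
          = (q : ℂ) ^ (ordv (t₁ - t₂) - (l : ℤ) * j)

/-- **T6.12h (summation over the layers).**  From `IndexC` and `CartanUpperC`:
`∑_{b ∈ k'/𝒪'} φ(cartan y_b) = q ^ ord(t₁ - t₂) · constTerm (q ^ l) φ (ord d₁) (ord d₂)`. -/
def LayerCountC : Prop :=
  ∀ (k k' : Type) [Field k] [Field k'] [Valued k Γ₀] [Valued k' Γ₀] (q l : ℕ)
    (i : k →+* k') (s : k' ≃+* k'),
    IsLocalField k q → IsLocalField k' (q ^ l) → IsLocalExt k k' l 1 i s →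
    ∀ φ : (ℤ × ℤ) →₀ ℂ,
    ∀ (d₁ d₂ : k') (t₁ t₂ : k), d₁ ≠ 0 → d₂ ≠ 0 → t₁ ≠ t₂ →
      fNorm s l d₁ = i t₁ → fNorm s l d₂ = i t₂ →
      ∀ (B : Set k') (Y : k' → GL (Fin 2) k'), IsReprSet B →
        (∀ b : k', (Y b : Matrix (Fin 2) (Fin 2) k') = !![d₁, d₁ * s b - d₂ * b; 0, d₂]) →
        ∑ᶠ b ∈ B, φ (cartan (Y b))
          = (q : ℂ) ^ (ordv (t₁ - t₂)) * constTerm (q ^ l) φ (ordv d₁) (ordv d₂)

/-- **The twisted orbit sum at a diagonal element** (= T6.12e + T6.12h). -/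
def OrbSumDiagC : Prop :=
  ∀ (k k' : Type) [Field k] [Field k'] [Valued k Γ₀] [Valued k' Γ₀] (q l : ℕ)
    (i : k →+* k') (s : k' ≃+* k'),
    IsLocalField k q → IsLocalField k' (q ^ l) → IsLocalExt k k' l 1 i s →
    ∀ φ : (ℤ × ℤ) →₀ ℂ,
    ∀ (d₁ d₂ : k') (t₁ t₂ : k) (δ₀ : GL (Fin 2) k'),
      (δ₀ : Matrix (Fin 2) (Fin 2) k') = !![d₁, 0; 0, d₂] → d₁ ≠ 0 → d₂ ≠ 0 → t₁ ≠ t₂ →
      fNorm s l d₁ = i t₁ → fNorm s l d₂ = i t₂ →
      ∀ c : ℂ, IsTwOrbSum s 0 (fun g => φ (cartan g)) δ₀ c →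
        c = (q : ℂ) ^ (ordv (t₁ - t₂)) * constTerm (q ^ l) φ (ordv d₁) (ordv d₂)

/-- **T6.12i (the spherical functions are bi-invariant).**  `cartan (u g u') = cartan g` for
`u, u' ∈ GL₂(𝒪)`. -/
def CartanInvC : Prop :=
  ∀ (k : Type) [Field k] [Valued k Γ₀] (u u' g : GL (Fin 2) k), InU 0 u → InU 0 u' →
    cartan (u * g * u') = cartan g

/-! ## Equation lemmas of `fNorm`, REALISED ONCE (ADDITIVE, row-lead helper17, 15:45Z; see
`coord/LT-collision-helper8.md`).  Nothing above this line is changed. -/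

theorem fNorm_eqns_realised : True := by
  have _h1 := @fNorm.eq_def
  have _h2 := @fNorm.eq_1
  have _h3 := @fNorm.eq_2
  trivial

end Fermat.Agent.LT.T6.H288

end
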