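import Fermat.Agent.LT.T6.H288.HypAssembled
import Fermat.Agent.LT.T6.H227.OrbitParam

/-!
# Row LT, tower T6, leaf T6.12 `FLHypC` (fundamental lemma, `γ` hyperbolic): CLOSED
(helper288, assembly)

`flHypC_closed : Fermat.Agent.LT.T6.FLHypC`, UNCONDITIONAL.  Inputs (all vendored
byte-identical from the owners' branches): `SatClosedC` (helper569), `CoeffCompareC`
(helper770), `DiagReduceC` (helper888), `IwasawaC` (helper546), `OrbitParamC` (helper227, on
the abstract unfolding of helper227 and the group facts of helper944), `CartanUpperC`
(helper176), `CartanInvC` (helper687), `LayerCountC` (helper830), and for the Jacobian `IndexC`: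
`BallIndexC` (helper459), `ReprCardC` (helper272), `ResFaithfulC` (helper400), `ResFixedC`
(helper131), `FixedModC` (helper82), `Hilbert90ModC` (helper555).
-/

set_option autoImplicit false

namespace Fermat.Agent.LT.T6.H288

theorem orbitParamC_closed : OrbitParamC := H227.orbitParamC227

theorem orbSumDiagC_closed : OrbSumDiagC :=
  orbSumDiag_of cartanInvC_closed orbitParamC_closed layerCountC_closed

/-- **T6.12 `FLHypC`, closed**: the fundamental lemma for base change for `GL₂`, unramified
`k'/k` of prime degree, at the hyperbolic regular `γ`. -/
theorem flHypC_closed : Fermat.Agent.LT.T6.FLHypC :=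
  flHypC_of_orbitParam orbitParamC_closed

end Fermat.Agent.LT.T6.H288
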