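import Fermat.Agent.LT.T6.H288.HypSpec

/-!
# Row LT, tower T6, leaf T6.12g `IndexC` (the Jacobian): SUB-SPEC (helper288)

OFF-MAIN.  Definitions + frozen sub-leaf Props; the tops are in `IndexTop.lean`.
Setting: `k'/k` unramified cyclic of degree `l` with generator `s` (`IsLocalExt k k' l 1 i s`),
residue fields `F ⊂ F'` of `q` and `Q = q ^ l` elements, `ϖ` a uniformiser of `k` (and of `k'`).

Route for `[𝒪' : (s - c)𝒪'] = [𝒪 : (1 - N c)𝒪]`, `c ∈ 𝒪'^×`, `r = ord(1 - N c)`: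
* `{x : s x - c x ∈ 𝒪'} = ϖ^{-r} Z`, `Z = {y ∈ 𝒪' : s y ≡ c y mod ϖ^r}` (norm argument);
* Hilbert 90 modulo `ϖ^r`: there is a unit `β` with `s β ≡ c β mod ϖ^r` (`Hilbert90ModC`), so
  `Z = β Z₁`, `Z₁ = {y ∈ 𝒪' : s y ≡ y mod ϖ^r}`;
* `Z₁ = i(𝒪) + ϖ^r 𝒪'` (`FixedModC`), so `[Z : ϖ^r 𝒪'] = [𝒪 : ϖ^r 𝒪] = q^r` (`BallIndexC`).
Both `Hilbert90ModC` and `FixedModC` rest on RESIDUAL FAITHFULNESS (`ResFaithfulC`): `s^m` is not
the identity on the residue field for `0 < m < l` (if `τ` preserves `v`, fixes `ϖ` and is trivial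
on `F'`, then `D = (τ - 1)/ϖ^r` induces a derivation of the finite field `F'`, which is zero).
-/

set_option autoImplicit false

noncomputable section

namespace Fermat.Agent.LT.T6.H288

open Fermat.Agent.LT.T6

/-- The ball `{x : v x ≤ exp n}` (`= ϖ^{-n} 𝒪`) as an additive subgroup. -/
def ball (k : Type) [Field k] [Valued k Γ₀] (n : ℤ) : AddSubgroup k where
  carrier := {x | Valued.v x ≤ WithZero.exp n}
  zero_mem' := by simp
  add_mem' := fun {x y} hx hy => by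
    change Valued.v (x + y) ≤ WithZero.exp n
    exact le_trans (Valuation.map_add _ x y) (max_le hx hy)
  neg_mem' := fun {x} hx => by
    change Valued.v (-x) ≤ WithZero.exp n
    rw [Valuation.map_neg]
    exact hx

/-- **T6.12g.1 (cardinality of `ϖ^{-n}𝒪 / ϖ^{-n'}𝒪`).** -/
def BallIndexC : Prop :=
  ∀ (k : Type) [Field k] [Valued k Γ₀] (q : ℕ), IsLocalField k q →
    ∀ n n' : ℤ, n' ≤ n → (ball k n').relIndex (ball k n) = q ^ (n - n').toNat

/-- **T6.12g.2 (counting with a system of representatives).**  For an additive subgroup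
`A ⊇ 𝒪` the number of representatives in `A` is the index `[A : 𝒪]`. -/
def ReprCardC : Prop :=
  ∀ (k : Type) [Field k] [Valued k Γ₀] (B : Set k), IsReprSet B →
    ∀ A : AddSubgroup k, ball k 0 ≤ A → (ball k 0).relIndex A ≠ 0 →
      {b : k | b ∈ B ∧ b ∈ A}.Finite ∧
        Set.ncard {b : k | b ∈ B ∧ b ∈ A} = (ball k 0).relIndex A

/-- **T6.12g.3 (residual faithfulness).**  For `0 < m < l` the automorphism `s^m` is not the
identity on the residue field of `k'`. -/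
def ResFaithfulC : Prop :=
  ∀ (k k' : Type) [Field k] [Field k'] [Valued k Γ₀] [Valued k' Γ₀] (q l : ℕ)
    (i : k →+* k') (s : k' ≃+* k'),
    IsLocalField k q → IsLocalField k' (q ^ l) → IsLocalExt k k' l 1 i s →
    ∀ m : ℕ, 0 < m → m < l → ∃ x : k', Valued.v x ≤ 1 ∧ Valued.v ((s ^ m) x - x) = 1

/-- **T6.12g.4 (the fixed field of `s` on the residue field is the residue field of `k`).**
(`ResFaithfulC` + Galois theory of the finite field `F'`, `#F' = (#F)^l`.) -/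
def ResFixedC : Prop :=
  ∀ (k k' : Type) [Field k] [Field k'] [Valued k Γ₀] [Valued k' Γ₀] (q l : ℕ)
    (i : k →+* k') (s : k' ≃+* k'),
    IsLocalField k q → IsLocalField k' (q ^ l) → IsLocalExt k k' l 1 i s →
    ∀ x : k', Valued.v x ≤ 1 → Valued.v (s x - x) < 1 →
      ∃ a : k, Valued.v a ≤ 1 ∧ Valued.v (x - i a) < 1

/-- **T6.12g.5 (fixed points modulo `ϖ^r`).**  `{y ∈ 𝒪' : s y ≡ y mod ϖ^r} = i(𝒪) + ϖ^r 𝒪'`.
(Induction on `r` from `ResFixedC`.) -/
def FixedModC : Prop :=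
  ∀ (k k' : Type) [Field k] [Field k'] [Valued k Γ₀] [Valued k' Γ₀] (q l : ℕ)
    (i : k →+* k') (s : k' ≃+* k'),
    IsLocalField k q → IsLocalField k' (q ^ l) → IsLocalExt k k' l 1 i s →
    ∀ (r : ℕ) (x : k'), Valued.v x ≤ 1 → Valued.v (s x - x) ≤ WithZero.exp (-(r : ℤ)) →
      ∃ a : k, Valued.v a ≤ 1 ∧ Valued.v (x - i a) ≤ WithZero.exp (-(r : ℤ))

/-- **T6.12g.6 (Hilbert 90 modulo `ϖ^r`).**  A unit `c` with `N c ≡ 1 mod ϖ^r` is
`≡ s(β)/β mod ϖ^r` for a unit `β`.  (`β = ∑_{j<l} a_j s^j(θ)`, `a_0 = 1`,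
`a_j = (c · s(c) ⋯ s^{j-1}(c))⁻¹`; then `s β = c β + c (N(c)⁻¹ - 1) θ`; `β` is a unit for a
suitable `θ` by Dedekind's independence of `1, s̄, …, s̄^{l-1}` on `F'`, `ResFaithfulC`.) -/
def Hilbert90ModC : Prop :=
  ∀ (k k' : Type) [Field k] [Field k'] [Valued k Γ₀] [Valued k' Γ₀] (q l : ℕ)
    (i : k →+* k') (s : k' ≃+* k'),
    IsLocalField k q → IsLocalField k' (q ^ l) → IsLocalExt k k' l 1 i s →
    ∀ (c : k') (r : ℕ), Valued.v c = 1 →
      Valued.v (fNorm s l c - 1) ≤ WithZero.exp (-(r : ℤ)) →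
      ∃ β : k', Valued.v β = 1 ∧ Valued.v (s β - c * β) ≤ WithZero.exp (-(r : ℤ))

/-- The additive subgroup `{x : v(s x - c x) ≤ exp n}` of `k'`. -/
def twistBall {k' : Type} [Field k'] [Valued k' Γ₀] (s : k' ≃+* k') (c : k') (n : ℤ) :
    AddSubgroup k' where
  carrier := {x | Valued.v (s x - c * x) ≤ WithZero.exp n}
  zero_mem' := by simp
  add_mem' := fun {x y} hx hy => by
    have : s (x + y) - c * (x + y) = (s x - c * x) + (s y - c * y) := by
      rw [map_add]; ring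
    change Valued.v (s (x + y) - c * (x + y)) ≤ WithZero.exp n
    rw [this]
    exact le_trans (Valuation.map_add _ _ _) (max_le hx hy)
  neg_mem' := fun {x} hx => by
    have : s (-x) - c * (-x) = -(s x - c * x) := by
      rw [map_neg]; ring
    change Valued.v (s (-x) - c * (-x)) ≤ WithZero.exp n
    rw [this, Valuation.map_neg]
    exact hx

/-- **T6.12g.7 (the core).**  `[{x : s x - c x ∈ 𝒪'} : 𝒪'] = q ^ ord(1 - ν)` for a unit `c` of
`𝒪'` with `N c = i ν`, `ν ≠ 1`. -/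
def TwistKerC : Prop :=
  ∀ (k k' : Type) [Field k] [Field k'] [Valued k Γ₀] [Valued k' Γ₀] (q l : ℕ)
    (i : k →+* k') (s : k' ≃+* k'),
    IsLocalField k q → IsLocalField k' (q ^ l) → IsLocalExt k k' l 1 i s →
    ∀ (c : k') (ν : k), Valued.v c = 1 → fNorm s l c = i ν → ν ≠ 1 →
      (ball k' 0).relIndex (twistBall s c 0) = q ^ (ordv (1 - ν)).toNat

end Fermat.Agent.LT.T6.H288

end
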