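import Fermat.Agent.LT.T6.H288.IndexClosed
import Fermat.Agent.LT.T6.H830.LayerCount
import Fermat.Agent.LT.T6.H176.CartanUpper
import Fermat.Agent.LT.T6.H687.CartanInv
import Fermat.Agent.LT.T6.H770.CoeffCompareClosed
import Fermat.Agent.LT.T6.H888.DiagReduce

/-!
# Row LT, tower T6, leaf T6.12 `FLHypC` (fundamental lemma, `γ` hyperbolic): ASSEMBLY
(helper288)

Everything is closed except `OrbitParamC` (T6.12e, the parametrisation of the twisted orbit sum
at a diagonal element by `k'/𝒪'`): `flHypC_of_orbitParam : OrbitParamC → T6.FLHypC`.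
-/

set_option autoImplicit false

namespace Fermat.Agent.LT.T6.H288

theorem cartanUpperC_closed : CartanUpperC := H176.cartanUpperC176

theorem cartanInvC_closed : CartanInvC := H687.cartanInvC_h687

theorem coeffCompareC_closed : CoeffCompareC := H770.coeffCompareC770

theorem diagReduceC_closed : DiagReduceC := H888.diagReduceC888

/-- **T6.12h `LayerCountC`, closed.** -/
theorem layerCountC_closed : LayerCountC :=
  H830.layerCountC_of830 indexC_closed cartanUpperC_closed

/-- **T6.12 `FLHypC`** from the only remaining sub-leaf `OrbitParamC`. -/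
theorem flHypC_of_orbitParam (hpar : OrbitParamC) : Fermat.Agent.LT.T6.FLHypC :=
  flHyp_of_leaves coeffCompareC_closed diagReduceC_closed
    (orbSumDiag_of cartanInvC_closed hpar layerCountC_closed)

end Fermat.Agent.LT.T6.H288
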