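import Fermat.Agent.LT.T6.H288.HypSpec

/-!
# Row LT, tower T6, leaf T6.12 `FLHypC`: the PROVED top from the sub-leaves (helper288)

* `orbSumDiag_of : CartanInvC → OrbitParamC → LayerCountC → OrbSumDiagC`
* `flHyp_of_leaves : CoeffCompareC → DiagReduceC → OrbSumDiagC → FLHypC`
-/

set_option autoImplicit false

open scoped Matrix

noncomputable section

namespace Fermat.Agent.LT.T6.H288

open Fermat.Agent.LT.T6

/-! ## Small lemmas -/

theorem glAut_refl_apply {R : Type} [CommRing R] (x : GL (Fin 2) R) :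
    glAut (RingEquiv.refl R) x = x := by
  apply Units.ext
  ext a b
  simp [glAut]

/-- The `s`-conjugacy class only depends on the class. -/
theorem twClass_eq {R : Type} [CommRing R] (s : R ≃+* R) {δ δ₀ : GL (Fin 2) R}
    (h : IsTwConj s δ δ₀) (y : GL (Fin 2) R) :
    (∃ x : GL (Fin 2) R, y = x⁻¹ * δ * glAut s x)
      ↔ ∃ x : GL (Fin 2) R, y = x⁻¹ * δ₀ * glAut s x := by
  obtain ⟨g, rfl⟩ := h
  constructor
  · rintro ⟨x, rfl⟩
    refine ⟨g⁻¹ * x, ?_⟩
    simp [mul_assoc]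
  · rintro ⟨x, rfl⟩
    refine ⟨g * x, ?_⟩
    simp [mul_assoc]

/-- The twisted orbit sum only depends on the `s`-conjugacy class. -/
theorem isTwOrbSum_of_twConj {k : Type} [Field k] [Valued k Γ₀] (s : k ≃+* k) (n : ℕ)
    (Φ : GL (Fin 2) k → ℂ) {δ δ₀ : GL (Fin 2) k} (h : IsTwConj s δ δ₀) {c : ℂ}
    (hc : IsTwOrbSum s n Φ δ c) : IsTwOrbSum s n Φ δ₀ c := by
  obtain ⟨R, h1, h2, h3, h4⟩ := hc
  refine ⟨R, ?_, h2, ?_, h4⟩
  · intro y hy
    exact (twClass_eq s h y).1 (h1 y hy)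
  · intro y hy hne
    exact h3 y ((twClass_eq s h y).2 hy) hne

theorem isTwConj_refl_of_isConj {R : Type} [CommRing R] {γ γ₀ : GL (Fin 2) R}
    (h : IsConj γ γ₀) : IsTwConj (RingEquiv.refl R) γ γ₀ := by
  obtain ⟨g, hg⟩ := isConj_iff.1 h
  refine ⟨g⁻¹, ?_⟩
  rw [glAut_refl_apply, inv_inv, hg]

theorem fNorm_refl_one {k : Type} [Field k] (t : k) : fNorm (RingEquiv.refl k) 1 t = t := by
  simp [fNorm]

theorem isLocalExt_refl (k : Type) [Field k] [Valued k Γ₀] :
    IsLocalExt k k 1 1 (RingHom.id k) (RingEquiv.refl k) where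
  cyc :=
    { pos := Nat.one_pos
      fix_i := fun _ => rfl
      fixed := fun y _ => ⟨y, rfl⟩
      order := fun _ => rfl
      faithful := fun m h0 h1 => absurd h1 (by omega) }
  e_pos := Nat.one_pos
  val_i := fun x => by simp
  val_s := fun _ => rfl

theorem ordv_mul {k : Type} [Field k] [Valued k Γ₀] {x y : k} (hx : x ≠ 0) (hy : y ≠ 0) :
    ordv (x * y) = ordv x + ordv y := by
  unfold ordv
  rw [map_mul, WithZero.log_mul ((Valuation.ne_zero_iff _).2 hx) ((Valuation.ne_zero_iff _).2 hy)]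
  ring

theorem fNorm_ne_zero {k' : Type} [Field k'] (s : k' ≃+* k') {d : k'} (hd : d ≠ 0) (n : ℕ) :
    fNorm s n d ≠ 0 := by
  induction n with
  | zero => simp [fNorm]
  | succ n ih => simpa [fNorm, hd] using ih

theorem ordv_fNorm {k' : Type} [Field k'] [Valued k' Γ₀] (s : k' ≃+* k')
    (hs : ∀ y : k', Valued.v (s y) = Valued.v y) {d : k'} (hd : d ≠ 0) (n : ℕ) :
    ordv (fNorm s n d) = (n : ℤ) * ordv d := by
  induction n with
  | zero => simp [fNorm, ordv]
  | succ n ih =>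
    have h1 : s (fNorm s n d) ≠ 0 := by simpa using fNorm_ne_zero s hd n
    have h2 : ordv (s (fNorm s n d)) = ordv (fNorm s n d) := by
      unfold ordv; rw [hs]
    rw [fNorm, ordv_mul hd h1, h2, ih]
    push_cast
    ring

theorem one_lt_of_isLocalField {k : Type} [Field k] [Valued k Γ₀] {q : ℕ}
    (hk : IsLocalField k q) : 1 < q := by
  obtain ⟨T, hcard, _, hT, hrep⟩ := hk.residue
  obtain ⟨x, hx, hx0⟩ := hrep 0 (by simp)
  obtain ⟨y, hy, hy1⟩ := hrep 1 (by simp)
  have hxy : x ≠ y := by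
    rintro rfl
    have h0 : Valued.v x < 1 := by simpa using hx0
    have h := Valuation.map_add_lt (Valued.v) hy1 h0
    simp at h
  rw [← hcard]
  exact Finset.one_lt_card.2 ⟨x, hx, y, hy, hxy⟩

/-! ## The tops -/

/-- **The twisted orbit sum at a diagonal element** from the parametrisation of the classes and
the summation over the layers. -/
theorem orbSumDiag_of (hinv : CartanInvC) (hpar : OrbitParamC) (hlay : LayerCountC) :
    OrbSumDiagC := by
  intro k k' _ _ _ _ q l i s hk hk' hext φ d₁ d₂ t₁ t₂ δ₀ hδ₀ hd₁ hd₂ ht hN₁ hN₂ c hc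
  have hbi : IsBiInv (InU 0) (fun g : GL (Fin 2) k' => φ (cartan g)) := by
    intro u u' g hu hu'
    simp only [hinv k' u u' g hu hu']
  have hNne : fNorm s l d₁ ≠ fNorm s l d₂ := by
    rw [hN₁, hN₂]
    exact fun h => ht (i.injective h)
  -- a system of representatives and the family `y_b`
  have hB : ∃ B : Set k', IsReprSet B := by
    classical
    let r : Setoid k' :=
      { r := fun x y => Valued.v (x - y) ≤ 1
        iseqv :=
          { refl := fun x => by simp
            symm := fun {x y} h => by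
              have : Valued.v (y - x) = Valued.v (x - y) := by
                rw [← neg_sub, Valuation.map_neg]
              rw [this]; exact h
            trans := fun {x y z} h1 h2 => by
              have : x - z = (x - y) + (y - z) := by ring
              rw [this]
              exact le_trans (Valuation.map_add _ _ _) (max_le h1 h2) } }
    refine ⟨Set.range fun c : Quotient r => c.out, ?_⟩
    intro x
    refine ⟨(Quotient.mk r x).out, ⟨⟨_, rfl⟩, ?_⟩, ?_⟩
    · have : r.r (Quotient.mk r x).out x := Quotient.exact (Quotient.out_eq _)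
      exact r.symm this
    · rintro b ⟨⟨c, rfl⟩, hb⟩
      have h1 : Quotient.mk r x = Quotient.mk r c.out := Quotient.sound hb
      rw [h1, Quotient.out_eq]
  obtain ⟨B, hB⟩ := hB
  have hY : ∀ b : k', ∃ g : GL (Fin 2) k',
      (g : Matrix (Fin 2) (Fin 2) k') = !![d₁, d₁ * s b - d₂ * b; 0, d₂] := by
    intro b
    refine ⟨Matrix.GeneralLinearGroup.mkOfDetNeZero !![d₁, d₁ * s b - d₂ * b; 0, d₂] ?_, rfl⟩
    simp [Matrix.det_fin_two, hd₁, hd₂]
  choose Y hY using hY
  rw [hpar k k' q l i s hk hk' hext _ hbi d₁ d₂ δ₀ hδ₀ hNne c hc B Y hB hY]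
  exact hlay k k' q l i s hk hk' hext φ d₁ d₂ t₁ t₂ hd₁ hd₂ ht hN₁ hN₂ B Y hB hY

/-- **T6.12 `FLHypC` from its sub-leaves.** -/
theorem flHyp_of_leaves (hcmp : CoeffCompareC) (hred : DiagReduceC) (hdiag : OrbSumDiagC) :
    FLHypC := by
  intro k k' _ _ _ _ q l i s hk hk' hext hl φ f hφ hf hbc δ γ c c' hreg heig hconj hc hc'
  obtain ⟨d₁, d₂, t₁, t₂, δ₀, γ₀, ht, hd₁, hd₂, hδ₀, hγ₀, hN₁, hN₂, htw, hcj⟩ :=
    hred k k' l i s hext.cyc δ γ hreg heig hconj
  have ht₁ : t₁ ≠ 0 := by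
    intro h
    have := fNorm_ne_zero s hd₁ l
    rw [hN₁, h, map_zero] at this
    exact this rfl
  have ht₂ : t₂ ≠ 0 := by
    intro h
    have := fNorm_ne_zero s hd₂ l
    rw [hN₂, h, map_zero] at this
    exact this rfl
  -- the twisted side
  have e1 := hdiag k k' q l i s hk hk' hext φ d₁ d₂ t₁ t₂ δ₀ hδ₀ hd₁ hd₂ ht hN₁ hN₂ c
    (isTwOrbSum_of_twConj s 0 _ htw hc)
  -- the untwisted side
  have hk1 : IsLocalField k (q ^ 1) := by rw [pow_one]; exact hk
  have e2 := hdiag k k q 1 (RingHom.id k) (RingEquiv.refl k) hk hk1 (isLocalExt_refl k) f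
    t₁ t₂ t₁ t₂ γ₀ hγ₀ ht₁ ht₂ ht (fNorm_refl_one t₁) (fNorm_refl_one t₂) c'
    (isTwOrbSum_of_twConj (RingEquiv.refl k) 0 _ (isTwConj_refl_of_isConj hcj) hc')
  -- valuations
  have hv : ∀ x : k, ordv (i x) = ordv x := by
    intro x
    unfold ordv
    rw [hext.val_i, pow_one]
  have o1 : ordv t₁ = (l : ℤ) * ordv d₁ := by
    rw [← hv, ← hN₁, ordv_fNorm s hext.val_s hd₁]
  have o2 : ordv t₂ = (l : ℤ) * ordv d₂ := by
    rw [← hv, ← hN₂, ordv_fNorm s hext.val_s hd₂]
  rw [e1, e2, pow_one, o1, o2,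
    hcmp l q hext.cyc.pos (one_lt_of_isLocalField hk) φ f hφ hf hbc (ordv d₁) (ordv d₂)]

end Fermat.Agent.LT.T6.H288

end
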