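import Fermat.Agent.LT.T6.H288.IndexSpec
import Fermat.Agent.LT.T6.H288.HypTop

/-!
# Row LT, tower T6, leaf T6.12g: basic lemmas on balls, scalings and norms (helper288)
-/

set_option autoImplicit false

noncomputable section

namespace Fermat.Agent.LT.T6.H288

open Fermat.Agent.LT.T6

section Basic

variable {k : Type} [Field k] [Valued k Γ₀]

theorem mem_ball {n : ℤ} {x : k} : x ∈ ball k n ↔ Valued.v x ≤ WithZero.exp n := Iff.rfl

theorem mem_twistBall {s : k ≃+* k} {c : k} {n : ℤ} {x : k} :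
    x ∈ twistBall s c n ↔ Valued.v (s x - c * x) ≤ WithZero.exp n := Iff.rfl

theorem v_ne_zero {x : k} (hx : x ≠ 0) : (Valued.v x : Γ₀) ≠ 0 :=
  (Valuation.ne_zero_iff _).2 hx

theorem v_eq_exp_neg_ordv {x : k} (hx : x ≠ 0) : Valued.v x = WithZero.exp (-ordv x) := by
  unfold ordv
  rw [neg_neg, WithZero.exp_log (v_ne_zero hx)]

theorem ordv_of_v_eq_exp {x : k} {a : ℤ} (h : Valued.v x = WithZero.exp a) : ordv x = -a := by
  unfold ordv
  rw [h, WithZero.log_exp]

theorem v_le_exp_neg_iff {x : k} {j : ℤ} :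
    Valued.v x ≤ WithZero.exp (-j) ↔ x = 0 ∨ j ≤ ordv x := by
  by_cases hx : x = 0
  · simp [hx]
  · rw [v_eq_exp_neg_ordv hx, WithZero.exp_le_exp]
    constructor
    · intro h; right; omega
    · rintro (h | h)
      · exact absurd h hx
      · omega

theorem ball_mono {n n' : ℤ} (h : n' ≤ n) : ball k n' ≤ ball k n := by
  intro x hx
  exact le_trans hx (WithZero.exp_le_exp.2 h)

/-- Scaling by `g`, `v g = exp a`, maps the ball of radius `n` onto the ball of radius
`n + a`. -/
theorem map_mulLeft_ball {g : k} {a : ℤ} (hg : Valued.v g = WithZero.exp a) (n : ℤ) :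
    (ball k n).map (AddMonoidHom.mulLeft g) = ball k (n + a) := by
  have hg0 : g ≠ 0 := by
    intro h
    rw [h, map_zero] at hg
    exact WithZero.exp_ne_zero hg.symm
  ext y
  constructor
  · rintro ⟨x, hx, rfl⟩
    change Valued.v (g * x) ≤ WithZero.exp (n + a)
    rw [map_mul, hg, add_comm n a, WithZero.exp_add]
    exact mul_le_mul_right hx _
  · intro hy
    refine ⟨g⁻¹ * y, ?_, ?_⟩
    · change Valued.v (g⁻¹ * y) ≤ WithZero.exp n
      rw [map_mul, map_inv₀, hg]
      have hy' : Valued.v y ≤ WithZero.exp (n + a) := hy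
      rw [add_comm n a, WithZero.exp_add] at hy'
      calc (WithZero.exp a)⁻¹ * Valued.v y
          ≤ (WithZero.exp a)⁻¹ * (WithZero.exp a * WithZero.exp n) := mul_le_mul_right hy' _
        _ = WithZero.exp n := by
          rw [← mul_assoc, inv_mul_cancel₀ WithZero.exp_ne_zero, one_mul]
    · change g * (g⁻¹ * y) = y
      rw [← mul_assoc, mul_inv_cancel₀ hg0, one_mul]

omit [Valued k Γ₀] in
theorem mulLeft_injective {g : k} (hg : g ≠ 0) :
    Function.Injective (AddMonoidHom.mulLeft g) := by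
  intro x y h
  exact mul_left_cancel₀ hg h

end Basic

section Norm

variable {k' : Type} [Field k']

theorem fNorm_mul (s : k' ≃+* k') (n : ℕ) (a b : k') :
    fNorm s n (a * b) = fNorm s n a * fNorm s n b := by
  induction n with
  | zero => simp [fNorm]
  | succ n ih =>
    simp only [fNorm, ih, map_mul]
    ring

theorem fNorm_inv (s : k' ≃+* k') (n : ℕ) (a : k') :
    fNorm s n a⁻¹ = (fNorm s n a)⁻¹ := by
  induction n with
  | zero => simp [fNorm]
  | succ n ih =>
    simp only [fNorm, ih, map_inv₀, mul_inv]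

theorem fNorm_div (s : k' ≃+* k') (n : ℕ) (a b : k') :
    fNorm s n (a / b) = fNorm s n a / fNorm s n b := by
  rw [div_eq_mul_inv, fNorm_mul, fNorm_inv, div_eq_mul_inv]

/-- `s^n x - N_n(c) x = s(s^{n-1} x - N_{n-1}(c) x) + s(N_{n-1} c) (s x - c x)`. -/
theorem iter_sub_fNorm (s : k' ≃+* k') (c x : k') (n : ℕ) :
    (s ^ (n + 1)) x - fNorm s (n + 1) c * x
      = s ((s ^ n) x - fNorm s n c * x) + s (fNorm s n c) * (s x - c * x) := by
  have h1 : (s ^ (n + 1)) x = s ((s ^ n) x) := by
    rw [pow_succ']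
    rfl
  rw [h1, fNorm, map_sub, map_mul]
  ring

end Norm

end Fermat.Agent.LT.T6.H288

end
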