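import Fermat.Agent.LT.T6.H288.IndexTop
import Fermat.Agent.LT.T6.H459.BallIndex
import Fermat.Agent.LT.T6.H272.ReprCard
import Fermat.Agent.LT.T6.H400.ResFaithful
import Fermat.Agent.LT.T6.H131.ResFixed
import Fermat.Agent.LT.T6.H82.FixedMod
import Fermat.Agent.LT.T6.H555.Hilbert90Mod

/-!
# Row LT, tower T6, leaf T6.12g `IndexC` (THE JACOBIAN): CLOSED (helper288, assembly)

`#{b ∈ k'/𝒪' : d₁ s(b) - d₂ b ∈ ϖ^j 𝒪'} = q ^ (ord(t₁ - t₂) - l j)`, UNCONDITIONAL.
Sub-leaves (all vendored byte-identical from the owners' branches):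
`BallIndexC` (helper459), `ReprCardC` (helper272), `ResFaithfulC` (helper400),
`ResFixedC` (helper131), `FixedModC` (helper82), `Hilbert90ModC` (helper555);
`TwistKerC` and the assembly are in `TwistKer.lean`, `IndexTop.lean`.
-/

set_option autoImplicit false

namespace Fermat.Agent.LT.T6.H288

theorem resFaithfulC_closed : ResFaithfulC := H400.resFaithful400

theorem resFixedC_closed : ResFixedC :=
  H131.resFixedC_of_resFaithfulC_h131 resFaithfulC_closed

theorem fixedModC_closed : FixedModC := H82.fixedModC_of_resFixed82 resFixedC_closed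

theorem hilbert90ModC_closed : Hilbert90ModC := H555.hilbert90ModC_of555 resFaithfulC_closed

theorem ballIndexC_closed : BallIndexC := H459.ballIndexC459

theorem reprCardC_closed : ReprCardC := H272.reprCardC272

theorem twistKerC_closed : TwistKerC :=
  twistKer_of fixedModC_closed hilbert90ModC_closed ballIndexC_closed

/-- **T6.12g `IndexC`, closed.** -/
theorem indexC_closed : IndexC :=
  index_of twistKerC_closed ballIndexC_closed reprCardC_closed

end Fermat.Agent.LT.T6.H288
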