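import Fermat.Agent.LT.T6.H288.TwistKer

/-!
# Row LT, tower T6, leaf T6.12g `IndexC` (THE JACOBIAN) from `TwistKerC`, `BallIndexC`,
`ReprCardC` (helper288)

`#{b ∈ k'/𝒪' : d₁ s(b) - d₂ b ∈ ϖ^j 𝒪'} = q ^ (ord(t₁ - t₂) - l j)`, `j ≤ min(ord d₁, ord d₂)`.

* `ord d₁ ≠ ord d₂`: `v(d₁ s b - d₂ b) = max(v d₁, v d₂) v(b)`, the set is a ball, and
  `ord(t₁ - t₂) = l min(ord d₁, ord d₂)`;
* `ord d₁ = ord d₂ = m`: `c = d₂ / d₁` is a unit with `N c = i (t₂ / t₁)`, the set is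
  `ϖ^{-(m - j)} {x : s x - c x ∈ 𝒪'}` and `TwistKerC` applies.
-/

set_option autoImplicit false

noncomputable section

namespace Fermat.Agent.LT.T6.H288

open Fermat.Agent.LT.T6

section Aux

variable {k : Type} [Field k] [Valued k Γ₀]

theorem exp_mul_le_exp_iff {a b : ℤ} {w : Γ₀} :
    WithZero.exp a * w ≤ WithZero.exp b ↔ w ≤ WithZero.exp (b - a) := by
  by_cases hw : w = 0
  · simp [hw]
  · rw [← WithZero.exp_log hw, ← WithZero.exp_add, WithZero.exp_le_exp, WithZero.exp_le_exp]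
    constructor <;> intro h <;> omega

theorem v_sub_of_ordv_lt {a b : k} (ha : a ≠ 0) (hb : b ≠ 0) (h : ordv a < ordv b) :
    Valued.v (a - b) = Valued.v a := by
  apply Valuation.map_sub_eq_of_lt_left
  rw [v_eq_exp_neg_ordv ha, v_eq_exp_neg_ordv hb, WithZero.exp_lt_exp]
  omega

theorem v_sub_of_ordv_gt {a b : k} (ha : a ≠ 0) (hb : b ≠ 0) (h : ordv b < ordv a) :
    Valued.v (a - b) = Valued.v b := by
  apply Valuation.map_sub_eq_of_lt_right
  rw [v_eq_exp_neg_ordv ha, v_eq_exp_neg_ordv hb, WithZero.exp_lt_exp]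
  omega

theorem ordv_eq_of_v_eq {k₁ k₂ : Type} [Field k₁] [Field k₂] [Valued k₁ Γ₀] [Valued k₂ Γ₀]
    {x : k₁} {y : k₂} (h : Valued.v x = Valued.v y) : ordv x = ordv y := by
  unfold ordv
  rw [h]

/-- The additive subgroup `{x : v(d₁ s x - d₂ x) ≤ exp n}`. -/
def jacBall (s : k ≃+* k) (d₁ d₂ : k) (n : ℤ) : AddSubgroup k where
  carrier := {x | Valued.v (d₁ * s x - d₂ * x) ≤ WithZero.exp n}
  zero_mem' := by simp
  add_mem' := fun {x y} hx hy => by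
    have : d₁ * s (x + y) - d₂ * (x + y) = (d₁ * s x - d₂ * x) + (d₁ * s y - d₂ * y) := by
      rw [map_add]; ring
    change Valued.v (d₁ * s (x + y) - d₂ * (x + y)) ≤ WithZero.exp n
    rw [this]
    exact le_trans (Valuation.map_add _ _ _) (max_le hx hy)
  neg_mem' := fun {x} hx => by
    have : d₁ * s (-x) - d₂ * (-x) = -(d₁ * s x - d₂ * x) := by
      rw [map_neg]; ring
    change Valued.v (d₁ * s (-x) - d₂ * (-x)) ≤ WithZero.exp n
    rw [this, Valuation.map_neg]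
    exact hx

theorem mem_jacBall {s : k ≃+* k} {d₁ d₂ : k} {n : ℤ} {x : k} :
    x ∈ jacBall s d₁ d₂ n ↔ Valued.v (d₁ * s x - d₂ * x) ≤ WithZero.exp n := Iff.rfl

/-- Scaling by an `s`-fixed `g`, `v g = exp a`, maps `twistBall s c n` onto
`twistBall s c (n + a)`. -/
theorem map_mulLeft_twistBall {s : k ≃+* k} {c g : k} {a : ℤ}
    (hg : Valued.v g = WithZero.exp a) (hsg : s g = g) (n : ℤ) :
    (twistBall s c n).map (AddMonoidHom.mulLeft g) = twistBall s c (n + a) := by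
  have hg0 : g ≠ 0 := by
    intro h
    rw [h, map_zero] at hg
    exact WithZero.exp_ne_zero hg.symm
  ext y
  constructor
  · rintro ⟨x, hx, rfl⟩
    have hx' : Valued.v (s x - c * x) ≤ WithZero.exp n := hx
    change Valued.v (s (g * x) - c * (g * x)) ≤ WithZero.exp (n + a)
    have e : s (g * x) - c * (g * x) = g * (s x - c * x) := by
      rw [map_mul, hsg]; ring
    rw [e, map_mul, hg, exp_mul_le_exp_iff]
    have : n + a - a = n := by ring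
    rw [this]
    exact hx'
  · intro hy
    have hy' : Valued.v (s y - c * y) ≤ WithZero.exp (n + a) := hy
    refine ⟨g⁻¹ * y, ?_, ?_⟩
    · change Valued.v (s (g⁻¹ * y) - c * (g⁻¹ * y)) ≤ WithZero.exp n
      have e : s (g⁻¹ * y) - c * (g⁻¹ * y) = g⁻¹ * (s y - c * y) := by
        rw [map_mul, map_inv₀, hsg]; ring
      rw [e, map_mul, map_inv₀, hg, ← WithZero.exp_neg, exp_mul_le_exp_iff]
      have : n - -a = n + a := by ring
      rw [this]
      exact hy'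
    · change g * (g⁻¹ * y) = y
      rw [← mul_assoc, mul_inv_cancel₀ hg0, one_mul]

theorem ball_le_twistBall {s : k ≃+* k} (hs : ∀ y : k, Valued.v (s y) = Valued.v y) {c : k}
    (hc : Valued.v c = 1) (n : ℤ) : ball k n ≤ twistBall s c n := by
  intro x hx
  have hx' : Valued.v x ≤ WithZero.exp n := hx
  change Valued.v (s x - c * x) ≤ WithZero.exp n
  refine Valuation.map_sub_le _ ?_ ?_
  · rw [hs]; exact hx'
  · rw [map_mul, hc, one_mul]; exact hx'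

end Aux

section Main

variable {k k' : Type} [Field k] [Field k'] [Valued k Γ₀] [Valued k' Γ₀] {q l : ℕ}
  {i : k →+* k'} {s : k' ≃+* k'}

theorem ordv_i (hext : IsLocalExt k k' l 1 i s) (x : k) : ordv (i x) = ordv x :=
  ordv_eq_of_v_eq (v_i hext x)

theorem ordv_s (hext : IsLocalExt k k' l 1 i s) (x : k') : ordv (s x) = ordv x :=
  ordv_eq_of_v_eq (hext.val_s x)

omit [Valued k Γ₀] [Valued k' Γ₀] in
theorem ne_zero_of_norm_eq {d : k'} {t : k} (hd : d ≠ 0) (hN : fNorm s l d = i t) :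
    t ≠ 0 := by
  rintro rfl
  rw [map_zero] at hN
  exact fNorm_ne_zero s hd l hN

theorem ordv_of_norm_eq (hext : IsLocalExt k k' l 1 i s) {d : k'} {t : k} (hd : d ≠ 0)
    (hN : fNorm s l d = i t) : ordv t = (l : ℤ) * ordv d := by
  rw [← ordv_i hext, ← hN, ordv_fNorm s hext.val_s hd]

/-- The case `ord d₁ < ord d₂`. -/
theorem jacBall_relIndex_lt (hball : BallIndexC) (hk' : IsLocalField k' (q ^ l))
    (hext : IsLocalExt k k' l 1 i s) {d₁ d₂ : k'} {t₁ t₂ : k} (hd₁ : d₁ ≠ 0) (hd₂ : d₂ ≠ 0)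
    (hN₁ : fNorm s l d₁ = i t₁) (hN₂ : fNorm s l d₂ = i t₂) {j : ℤ}
    (hj : j ≤ ordv d₁) (hlt : ordv d₁ < ordv d₂) :
    0 ≤ ordv (t₁ - t₂) - (l : ℤ) * j ∧
      (ball k' 0).relIndex (jacBall s d₁ d₂ (-j))
        = q ^ (ordv (t₁ - t₂) - (l : ℤ) * j).toNat := by
  have hl : 0 < l := hext.cyc.pos
  have ht₁ : t₁ ≠ 0 := ne_zero_of_norm_eq hd₁ hN₁
  have ht₂ : t₂ ≠ 0 := ne_zero_of_norm_eq hd₂ hN₂
  have ho₁ := ordv_of_norm_eq hext hd₁ hN₁
  have ho₂ := ordv_of_norm_eq hext hd₂ hN₂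
  have hlt' : ordv t₁ < ordv t₂ := by
    rw [ho₁, ho₂]
    exact mul_lt_mul_of_pos_left hlt (by exact_mod_cast hl)
  have hvt : Valued.v (t₁ - t₂) = Valued.v t₁ := v_sub_of_ordv_lt ht₁ ht₂ hlt'
  have hot : ordv (t₁ - t₂) = (l : ℤ) * ordv d₁ := by
    rw [ordv_eq_of_v_eq hvt, ho₁]
  have hJ : jacBall s d₁ d₂ (-j) = ball k' (ordv d₁ - j) := by
    ext x
    rw [mem_jacBall, mem_ball]
    by_cases hx : x = 0
    · simp [hx]
    · have hsx : s x ≠ 0 := by simpa using hx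
      have h1 : d₁ * s x ≠ 0 := mul_ne_zero hd₁ hsx
      have h2 : d₂ * x ≠ 0 := mul_ne_zero hd₂ hx
      have h3 : ordv (d₁ * s x) < ordv (d₂ * x) := by
        rw [ordv_mul hd₁ hsx, ordv_mul hd₂ hx, ordv_s hext]
        omega
      rw [v_sub_of_ordv_lt h1 h2 h3, map_mul, hext.val_s, v_eq_exp_neg_ordv hd₁,
        exp_mul_le_exp_iff]
      have : -j - -ordv d₁ = ordv d₁ - j := by ring
      rw [this]
  have hn : (0 : ℤ) ≤ ordv d₁ - j := by omega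
  refine ⟨?_, ?_⟩
  · rw [hot]
    have : (l : ℤ) * ordv d₁ - (l : ℤ) * j = (l : ℤ) * (ordv d₁ - j) := by ring
    rw [this]
    positivity
  · rw [hJ, hball k' (q ^ l) hk' (ordv d₁ - j) 0 hn, hot, ← pow_mul]
    congr 1
    have h1 : (l : ℤ) * ordv d₁ - (l : ℤ) * j = (l : ℤ) * (ordv d₁ - j) := by ring
    rw [h1, sub_zero]
    zify
    rw [Int.toNat_of_nonneg hn, Int.toNat_of_nonneg (by positivity)]

/-- The case `ord d₂ < ord d₁`. -/
theorem jacBall_relIndex_gt (hball : BallIndexC) (hk' : IsLocalField k' (q ^ l))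
    (hext : IsLocalExt k k' l 1 i s) {d₁ d₂ : k'} {t₁ t₂ : k} (hd₁ : d₁ ≠ 0) (hd₂ : d₂ ≠ 0)
    (hN₁ : fNorm s l d₁ = i t₁) (hN₂ : fNorm s l d₂ = i t₂) {j : ℤ}
    (hj : j ≤ ordv d₂) (hlt : ordv d₂ < ordv d₁) :
    0 ≤ ordv (t₁ - t₂) - (l : ℤ) * j ∧
      (ball k' 0).relIndex (jacBall s d₁ d₂ (-j))
        = q ^ (ordv (t₁ - t₂) - (l : ℤ) * j).toNat := by
  have hl : 0 < l := hext.cyc.pos
  have ht₁ : t₁ ≠ 0 := ne_zero_of_norm_eq hd₁ hN₁
  have ht₂ : t₂ ≠ 0 := ne_zero_of_norm_eq hd₂ hN₂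
  have ho₁ := ordv_of_norm_eq hext hd₁ hN₁
  have ho₂ := ordv_of_norm_eq hext hd₂ hN₂
  have hlt' : ordv t₂ < ordv t₁ := by
    rw [ho₁, ho₂]
    exact mul_lt_mul_of_pos_left hlt (by exact_mod_cast hl)
  have hvt : Valued.v (t₁ - t₂) = Valued.v t₂ := v_sub_of_ordv_gt ht₁ ht₂ hlt'
  have hot : ordv (t₁ - t₂) = (l : ℤ) * ordv d₂ := by
    rw [ordv_eq_of_v_eq hvt, ho₂]
  have hJ : jacBall s d₁ d₂ (-j) = ball k' (ordv d₂ - j) := by
    ext x
    rw [mem_jacBall, mem_ball]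
    by_cases hx : x = 0
    · simp [hx]
    · have hsx : s x ≠ 0 := by simpa using hx
      have h1 : d₁ * s x ≠ 0 := mul_ne_zero hd₁ hsx
      have h2 : d₂ * x ≠ 0 := mul_ne_zero hd₂ hx
      have h3 : ordv (d₂ * x) < ordv (d₁ * s x) := by
        rw [ordv_mul hd₁ hsx, ordv_mul hd₂ hx, ordv_s hext]
        omega
      rw [v_sub_of_ordv_gt h1 h2 h3, map_mul, v_eq_exp_neg_ordv hd₂, exp_mul_le_exp_iff]
      have : -j - -ordv d₂ = ordv d₂ - j := by ring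
      rw [this]
  have hn : (0 : ℤ) ≤ ordv d₂ - j := by omega
  refine ⟨?_, ?_⟩
  · rw [hot]
    have : (l : ℤ) * ordv d₂ - (l : ℤ) * j = (l : ℤ) * (ordv d₂ - j) := by ring
    rw [this]
    positivity
  · rw [hJ, hball k' (q ^ l) hk' (ordv d₂ - j) 0 hn, hot, ← pow_mul]
    congr 1
    have h1 : (l : ℤ) * ordv d₂ - (l : ℤ) * j = (l : ℤ) * (ordv d₂ - j) := by ring
    rw [h1, sub_zero]
    zify
    rw [Int.toNat_of_nonneg hn, Int.toNat_of_nonneg (by positivity)]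

/-- The case `ord d₁ = ord d₂`. -/
theorem jacBall_relIndex_eq (htw : TwistKerC) (hball : BallIndexC) (hk : IsLocalField k q)
    (hk' : IsLocalField k' (q ^ l))
    (hext : IsLocalExt k k' l 1 i s) {d₁ d₂ : k'} {t₁ t₂ : k} (hd₁ : d₁ ≠ 0) (hd₂ : d₂ ≠ 0)
    (ht : t₁ ≠ t₂)
    (hN₁ : fNorm s l d₁ = i t₁) (hN₂ : fNorm s l d₂ = i t₂) {j : ℤ}
    (hj : j ≤ ordv d₁) (heq : ordv d₁ = ordv d₂) :
    0 ≤ ordv (t₁ - t₂) - (l : ℤ) * j ∧
      (ball k' 0).relIndex (jacBall s d₁ d₂ (-j))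
        = q ^ (ordv (t₁ - t₂) - (l : ℤ) * j).toNat := by
  have hl : 0 < l := hext.cyc.pos
  have ht₁ : t₁ ≠ 0 := ne_zero_of_norm_eq hd₁ hN₁
  have ht₂ : t₂ ≠ 0 := ne_zero_of_norm_eq hd₂ hN₂
  have ho₁ := ordv_of_norm_eq hext hd₁ hN₁
  -- the unit `c` and its norm `ν`
  set c : k' := d₂ / d₁ with hcdef
  set ν : k := t₂ / t₁ with hνdef
  have hd₁c : d₁ * c = d₂ := by rw [hcdef, mul_div_cancel₀ _ hd₁]
  have hvc : Valued.v c = 1 := by
    rw [hcdef, map_div₀, v_eq_exp_neg_ordv hd₁, v_eq_exp_neg_ordv hd₂, heq]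
    exact div_self WithZero.exp_ne_zero
  have hNc : fNorm s l c = i ν := by
    rw [hcdef, fNorm_div, hN₁, hN₂, hνdef, map_div₀]
  have hν : ν ≠ 1 := by
    intro h
    rw [hνdef, div_eq_one_iff_eq ht₁] at h
    exact ht h.symm
  have h1ν : (1 : k) - ν ≠ 0 := sub_ne_zero.2 (Ne.symm hν)
  have hvν : Valued.v ν = 1 := by
    rw [← v_i hext, ← hNc]; exact v_fNorm_of_unit hext hvc l
  have hord : 0 ≤ ordv (1 - ν) := by
    have hv1ν : Valued.v (1 - ν) ≤ WithZero.exp (-(0 : ℤ)) := by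
      rw [neg_zero, WithZero.exp_zero]
      refine Valuation.map_sub_le _ ?_ ?_
      · simp
      · rw [hvν]
    rcases v_le_exp_neg_iff.1 hv1ν with h | h
    · exact absurd h h1ν
    · exact h
  have hmul : t₁ - t₂ = (1 - ν) * t₁ := by
    rw [hνdef]; field_simp
  have hot : ordv (t₁ - t₂) = ordv (1 - ν) + (l : ℤ) * ordv d₁ := by
    rw [hmul, ordv_mul h1ν ht₁, ho₁]
  -- the scaling element
  have hn : (0 : ℤ) ≤ ordv d₁ - j := by omega
  obtain ⟨ϖ₀, hϖ₀⟩ := hk.unif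
  set N : ℕ := (ordv d₁ - j).toNat with hNdef
  have hNn : (N : ℤ) = ordv d₁ - j := Int.toNat_of_nonneg hn
  set g : k' := ((i ϖ₀) ^ N)⁻¹ with hgdef
  have hsg : s g = g := by
    rw [hgdef, map_inv₀, map_pow, hext.cyc.fix_i]
  have hvg : Valued.v g = WithZero.exp (ordv d₁ - j) := by
    rw [hgdef, map_inv₀, map_pow, v_i hext, hϖ₀, ← WithZero.exp_nsmul, ← WithZero.exp_neg,
      ← hNn]
    simp
  -- the set is a scaled twisted ball
  have hJ : jacBall s d₁ d₂ (-j) = twistBall s c (ordv d₁ - j) := by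
    ext x
    rw [mem_jacBall, mem_twistBall]
    have e : d₁ * s x - d₂ * x = d₁ * (s x - c * x) := by
      rw [← hd₁c]; ring
    rw [e, map_mul, v_eq_exp_neg_ordv hd₁, exp_mul_le_exp_iff]
    have : -j - -ordv d₁ = ordv d₁ - j := by ring
    rw [this]
  have hT : twistBall s c (ordv d₁ - j) = (twistBall s c 0).map (AddMonoidHom.mulLeft g) := by
    rw [map_mulLeft_twistBall hvg hsg, zero_add]
  have hBn : ball k' (ordv d₁ - j) = (ball k' 0).map (AddMonoidHom.mulLeft g) := by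
    rw [map_mulLeft_ball hvg, zero_add]
  have hg0 : g ≠ 0 := by
    intro h
    rw [h, map_zero] at hvg
    exact WithZero.exp_ne_zero hvg.symm
  have hstep : (ball k' (ordv d₁ - j)).relIndex (twistBall s c (ordv d₁ - j))
      = q ^ (ordv (1 - ν)).toNat := by
    rw [hT, hBn, AddSubgroup.relIndex_map_map_of_injective _ _ (mulLeft_injective hg0)]
    exact htw k k' q l i s hk hk' hext c ν hvc hNc hν
  have h01 : ball k' 0 ≤ ball k' (ordv d₁ - j) := ball_mono hn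
  have h12 : ball k' (ordv d₁ - j) ≤ twistBall s c (ordv d₁ - j) :=
    ball_le_twistBall hext.val_s hvc _
  refine ⟨?_, ?_⟩
  · rw [hot]
    have : ordv (1 - ν) + (l : ℤ) * ordv d₁ - (l : ℤ) * j
        = ordv (1 - ν) + (l : ℤ) * (ordv d₁ - j) := by ring
    rw [this]
    positivity
  · rw [hJ, ← AddSubgroup.relIndex_mul_relIndex _ _ _ h01 h12, hstep,
      hball k' (q ^ l) hk' (ordv d₁ - j) 0 hn, ← pow_mul, ← pow_add, hot]
    congr 1
    have h1 : ordv (1 - ν) + (l : ℤ) * ordv d₁ - (l : ℤ) * j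
        = ordv (1 - ν) + (l : ℤ) * (ordv d₁ - j) := by ring
    rw [h1, sub_zero]
    zify
    rw [Int.toNat_of_nonneg hn, Int.toNat_of_nonneg hord, Int.toNat_of_nonneg (by positivity)]
    ring

theorem jacBall_relIndex (htw : TwistKerC) (hball : BallIndexC) (hk : IsLocalField k q)
    (hk' : IsLocalField k' (q ^ l))
    (hext : IsLocalExt k k' l 1 i s) {d₁ d₂ : k'} {t₁ t₂ : k} (hd₁ : d₁ ≠ 0) (hd₂ : d₂ ≠ 0)
    (ht : t₁ ≠ t₂)
    (hN₁ : fNorm s l d₁ = i t₁) (hN₂ : fNorm s l d₂ = i t₂) {j : ℤ}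
    (hj : j ≤ min (ordv d₁) (ordv d₂)) :
    0 ≤ ordv (t₁ - t₂) - (l : ℤ) * j ∧
      (ball k' 0).relIndex (jacBall s d₁ d₂ (-j))
        = q ^ (ordv (t₁ - t₂) - (l : ℤ) * j).toNat := by
  have hj₁ : j ≤ ordv d₁ := le_trans hj (min_le_left _ _)
  have hj₂ : j ≤ ordv d₂ := le_trans hj (min_le_right _ _)
  rcases lt_trichotomy (ordv d₁) (ordv d₂) with h | h | h
  · exact jacBall_relIndex_lt hball hk' hext hd₁ hd₂ hN₁ hN₂ hj₁ h
  · exact jacBall_relIndex_eq htw hball hk hk' hext hd₁ hd₂ ht hN₁ hN₂ hj₁ h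
  · exact jacBall_relIndex_gt hball hk' hext hd₁ hd₂ hN₁ hN₂ hj₂ h

theorem ball_le_jacBall (hext : IsLocalExt k k' l 1 i s) {d₁ d₂ : k'} (hd₁ : d₁ ≠ 0)
    (hd₂ : d₂ ≠ 0) {j : ℤ} (hj : j ≤ min (ordv d₁) (ordv d₂)) :
    ball k' 0 ≤ jacBall s d₁ d₂ (-j) := by
  have hj₁ : j ≤ ordv d₁ := le_trans hj (min_le_left _ _)
  have hj₂ : j ≤ ordv d₂ := le_trans hj (min_le_right _ _)
  intro x hx
  have hx' : Valued.v x ≤ WithZero.exp 0 := hx
  rw [mem_jacBall]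
  refine Valuation.map_sub_le _ ?_ ?_
  · rw [map_mul, hext.val_s, v_eq_exp_neg_ordv hd₁, exp_mul_le_exp_iff]
    refine le_trans hx' (WithZero.exp_le_exp.2 ?_)
    omega
  · rw [map_mul, v_eq_exp_neg_ordv hd₂, exp_mul_le_exp_iff]
    refine le_trans hx' (WithZero.exp_le_exp.2 ?_)
    omega

end Main

/-- **T6.12g `IndexC`** from `TwistKerC`, `BallIndexC` and `ReprCardC`. -/
theorem index_of (htw : TwistKerC) (hball : BallIndexC) (hrep : ReprCardC) : IndexC := by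
  intro k k' _ _ _ _ q l i s hk hk' hext d₁ d₂ t₁ t₂ hd₁ hd₂ ht hN₁ hN₂ B hB j hj
  obtain ⟨hnn, hidx⟩ := jacBall_relIndex htw hball hk hk' hext hd₁ hd₂ ht hN₁ hN₂ hj
  have hq : 1 < q := one_lt_of_isLocalField hk
  have hset : {b : k' | b ∈ B ∧ (d₁ * s b - d₂ * b = 0 ∨ j ≤ ordv (d₁ * s b - d₂ * b))}
      = {b : k' | b ∈ B ∧ b ∈ jacBall s d₁ d₂ (-j)} := by
    ext b
    constructor
    · rintro ⟨h1, h2⟩
      exact ⟨h1, v_le_exp_neg_iff.2 h2⟩
    · rintro ⟨h1, h2⟩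
      exact ⟨h1, v_le_exp_neg_iff.1 h2⟩
  have hle : ball k' 0 ≤ jacBall s d₁ d₂ (-j) := ball_le_jacBall hext hd₁ hd₂ hj
  have hne : (ball k' 0).relIndex (jacBall s d₁ d₂ (-j)) ≠ 0 := by
    rw [hidx]
    exact pow_ne_zero _ (by omega)
  obtain ⟨hfin, hcard⟩ := hrep k' B hB _ hle hne
  rw [hset]
  refine ⟨hfin, ?_⟩
  rw [hcard, hidx]
  push_cast
  rw [← zpow_natCast, Int.toNat_of_nonneg hnn]

/-- `IndexC` from the six basic sub-leaves. -/
theorem index_of_basic (hfix : FixedModC) (h90 : Hilbert90ModC) (hball : BallIndexC)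
    (hrep : ReprCardC) : IndexC :=
  index_of (twistKer_of hfix h90 hball) hball hrep

end Fermat.Agent.LT.T6.H288

end
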