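import Fermat.Agent.LT.T6.H288.IndexBasic

/-!
# Row LT, tower T6, leaf T6.12g.7 `TwistKerC` (the core of the Jacobian) from
`FixedModC`, `Hilbert90ModC`, `BallIndexC` (helper288)
-/

set_option autoImplicit false

noncomputable section

namespace Fermat.Agent.LT.T6.H288

open Fermat.Agent.LT.T6

section

variable {k k' : Type} [Field k] [Field k'] [Valued k Γ₀] [Valued k' Γ₀] {q l : ℕ}
  {i : k →+* k'} {s : k' ≃+* k'}

theorem v_i (hext : IsLocalExt k k' l 1 i s) (x : k) : Valued.v (i x) = Valued.v x := by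
  rw [hext.val_i, pow_one]

theorem v_s_pow (hext : IsLocalExt k k' l 1 i s) (n : ℕ) (x : k') :
    Valued.v ((s ^ n) x) = Valued.v x := by
  induction n with
  | zero => rfl
  | succ n ih =>
    have : (s ^ (n + 1)) x = s ((s ^ n) x) := by
      rw [pow_succ']; rfl
    rw [this, hext.val_s, ih]

theorem v_fNorm_of_unit (hext : IsLocalExt k k' l 1 i s) {c : k'} (hc : Valued.v c = 1)
    (n : ℕ) : Valued.v (fNorm s n c) = 1 := by
  induction n with
  | zero => simp [fNorm]
  | succ n ih => rw [fNorm, map_mul, hext.val_s, ih, hc, one_mul]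

/-- The norm argument: if `s x - c x` is integral (`c` a unit) then `(1 - N c) x` is
integral. -/
theorem v_one_sub_norm_mul_le (hext : IsLocalExt k k' l 1 i s) {c x : k'}
    (hc : Valued.v c = 1) (hx : Valued.v (s x - c * x) ≤ 1) (n : ℕ) :
    Valued.v ((s ^ n) x - fNorm s n c * x) ≤ 1 := by
  induction n with
  | zero => simp [fNorm]
  | succ n ih =>
    rw [iter_sub_fNorm]
    refine le_trans (Valuation.map_add _ _ _) (max_le ?_ ?_)
    · rw [hext.val_s]; exact ih
    · rw [map_mul, hext.val_s, v_fNorm_of_unit hext hc, one_mul]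
      exact hx

end

/-- **T6.12g.7 `TwistKerC`** from `FixedModC`, `Hilbert90ModC` and `BallIndexC`. -/
theorem twistKer_of (hfix : FixedModC) (h90 : Hilbert90ModC) (hball : BallIndexC) :
    TwistKerC := by
  intro k k' _ _ _ _ q l i s hk hk' hext c ν hc hN hν
  -- the uniformiser
  obtain ⟨ϖ₀, hϖ₀⟩ := hk.unif
  set ϖ : k' := i ϖ₀ with hϖdef
  have hϖ : Valued.v ϖ = WithZero.exp (-1 : ℤ) := by rw [hϖdef, v_i hext, hϖ₀]
  have hsϖ : s ϖ = ϖ := hext.cyc.fix_i ϖ₀
  -- `ν` is a unit, `1 - ν ≠ 0`
  have hvν : Valued.v ν = 1 := by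
    rw [← v_i hext, ← hN]; exact v_fNorm_of_unit hext hc l
  have h1ν : (1 : k) - ν ≠ 0 := sub_ne_zero.2 (Ne.symm hν)
  have hv1ν : Valued.v (1 - ν) ≤ 1 := by
    refine le_trans (Valuation.map_sub _ _ _) (max_le ?_ ?_)
    · simp
    · rw [hvν]
  have hord : 0 ≤ ordv (1 - ν) := by
    have := (v_le_exp_neg_iff (x := 1 - ν) (j := 0)).1 (by simpa using hv1ν)
    rcases this with h | h
    · exact absurd h h1ν
    · exact h
  set r : ℕ := (ordv (1 - ν)).toNat with hrdef
  have hr : (r : ℤ) = ordv (1 - ν) := Int.toNat_of_nonneg hord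
  have hv1ν' : Valued.v (1 - ν) = WithZero.exp (-(r : ℤ)) := by
    rw [hr]; exact v_eq_exp_neg_ordv h1ν
  -- Hilbert 90 modulo `ϖ ^ r`
  have hNc : Valued.v (fNorm s l c - 1) ≤ WithZero.exp (-(r : ℤ)) := by
    have h0 : fNorm s l c - 1 = -(i (1 - ν)) := by
      rw [hN, map_sub, map_one]; ring
    rw [h0, Valuation.map_neg, v_i hext, hv1ν']
  obtain ⟨β, hβ, hβc⟩ := h90 k k' q l i s hk hk' hext c r hc hNc
  have hβ0 : β ≠ 0 := by
    intro h; rw [h, map_zero] at hβ; exact zero_ne_one hβ
  -- the scaling element `g = β ϖ^{-r}`, `v g = exp r`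
  set P : k' := ϖ ^ r with hPdef
  have hvP : Valued.v P = WithZero.exp (-(r : ℤ)) := by
    rw [hPdef, map_pow, hϖ, ← WithZero.exp_nsmul]
    simp
  have hP0 : P ≠ 0 := by
    intro h; rw [h, map_zero] at hvP; exact WithZero.exp_ne_zero hvP.symm
  have hsP : s P = P := by rw [hPdef, map_pow, hsϖ]
  set g : k' := β * P⁻¹ with hgdef
  have hvg : Valued.v g = WithZero.exp (r : ℤ) := by
    rw [hgdef, map_mul, map_inv₀, hβ, hvP, one_mul, WithZero.exp_neg, inv_inv]
  have hg0 : g ≠ 0 := mul_ne_zero hβ0 (inv_ne_zero hP0)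
  -- the fixed points modulo `ϖ ^ r`
  set Z₁ : AddSubgroup k' := twistBall s 1 (-(r : ℤ)) ⊓ ball k' 0 with hZ₁
  -- Claim A
  have hA : twistBall s c 0 = Z₁.map (AddMonoidHom.mulLeft g) := by
    ext x
    constructor
    · intro hx
      have hx' : Valued.v (s x - c * x) ≤ 1 := by simpa [mem_twistBall] using hx
      -- `v x ≤ exp r`
      have h1 := v_one_sub_norm_mul_le hext hc hx' l
      rw [hext.cyc.order, hN] at h1
      have h2 : x - i ν * x = i (1 - ν) * x := by rw [map_sub, map_one]; ring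
      rw [h2, map_mul, v_i hext, hv1ν'] at h1
      have hvx : Valued.v x ≤ WithZero.exp (r : ℤ) := by
        calc Valued.v x = WithZero.exp (r : ℤ) * (WithZero.exp (-(r : ℤ)) * Valued.v x) := by
              rw [← mul_assoc, ← WithZero.exp_add]; simp
          _ ≤ WithZero.exp (r : ℤ) * 1 := mul_le_mul_right h1 _
          _ = WithZero.exp (r : ℤ) := mul_one _
      obtain ⟨y, hxy⟩ : ∃ y : k', x = g * y :=
        ⟨g⁻¹ * x, by rw [← mul_assoc, mul_inv_cancel₀ hg0, one_mul]⟩
      have hy : y = g⁻¹ * x := by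
        rw [hxy, ← mul_assoc, inv_mul_cancel₀ hg0, one_mul]
      have hvy : Valued.v y ≤ 1 := by
        rw [hy, map_mul, map_inv₀, hvg]
        calc (WithZero.exp (r : ℤ))⁻¹ * Valued.v x
            ≤ (WithZero.exp (r : ℤ))⁻¹ * WithZero.exp (r : ℤ) := mul_le_mul_right hvx _
          _ = 1 := inv_mul_cancel₀ WithZero.exp_ne_zero
      refine ⟨y, ⟨?_, by simpa [mem_ball] using hvy⟩, hxy.symm⟩
      -- `v (s y - y) ≤ exp (-r)`
      have hsg : s g = s β * P⁻¹ := by rw [hgdef, map_mul, map_inv₀, hsP]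
      have hPg : P * g = β := by
        rw [hgdef, mul_comm β, ← mul_assoc, mul_inv_cancel₀ hP0, one_mul]
      have hPsg : P * s g = s β := by
        rw [hsg, mul_comm (s β), ← mul_assoc, mul_inv_cancel₀ hP0, one_mul]
      have key : c * β * (s y - y) = P * (s x - c * x) - (s β - c * β) * s y := by
        have e1 : P * (s x - c * x) = (P * s g) * s y - c * (P * g) * y := by
          rw [hxy, map_mul]; ring
        rw [e1, hPg, hPsg]; ring
      have hvkey : Valued.v (c * β * (s y - y)) ≤ WithZero.exp (-(r : ℤ)) := by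
        rw [key]
        refine le_trans (Valuation.map_sub _ _ _) (max_le ?_ ?_)
        · rw [map_mul, hvP]
          calc WithZero.exp (-(r : ℤ)) * Valued.v (s x - c * x)
              ≤ WithZero.exp (-(r : ℤ)) * 1 := mul_le_mul_right hx' _
            _ = _ := mul_one _
        · rw [map_mul, hext.val_s]
          calc Valued.v (s β - c * β) * Valued.v y
              ≤ WithZero.exp (-(r : ℤ)) * 1 := mul_le_mul' hβc hvy
            _ = _ := mul_one _
      rw [map_mul, map_mul, hc, hβ, one_mul, one_mul] at hvkey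
      change Valued.v (s y - 1 * y) ≤ WithZero.exp (-(r : ℤ))
      rwa [one_mul]
    · rintro ⟨y, ⟨hy1, hy2⟩, rfl⟩
      have hy1' : Valued.v (s y - y) ≤ WithZero.exp (-(r : ℤ)) := by
        have : Valued.v (s y - 1 * y) ≤ WithZero.exp (-(r : ℤ)) := hy1
        rwa [one_mul] at this
      have hy2' : Valued.v y ≤ 1 := by simpa [mem_ball] using hy2
      change Valued.v (s (g * y) - c * (g * y)) ≤ WithZero.exp 0
      have hsg : s g = s β * P⁻¹ := by rw [hgdef, map_mul, map_inv₀, hsP]
      have key : s (g * y) - c * (g * y)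
          = P⁻¹ * ((s β - c * β) * s y + c * β * (s y - y)) := by
        rw [map_mul, hsg]
        have : g = β * P⁻¹ := hgdef
        rw [this]
        ring
      rw [key, map_mul, map_inv₀, hvP, WithZero.exp_zero]
      have h3 : Valued.v ((s β - c * β) * s y + c * β * (s y - y))
          ≤ WithZero.exp (-(r : ℤ)) := by
        refine le_trans (Valuation.map_add _ _ _) (max_le ?_ ?_)
        · rw [map_mul, hext.val_s]
          calc Valued.v (s β - c * β) * Valued.v y
              ≤ WithZero.exp (-(r : ℤ)) * 1 := mul_le_mul' hβc hy2'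
            _ = _ := mul_one _
        · rw [map_mul, map_mul, hc, hβ, one_mul, one_mul]
          exact hy1'
      calc (WithZero.exp (-(r : ℤ)))⁻¹ * Valued.v ((s β - c * β) * s y + c * β * (s y - y))
          ≤ (WithZero.exp (-(r : ℤ)))⁻¹ * WithZero.exp (-(r : ℤ)) := mul_le_mul_right h3 _
        _ = 1 := inv_mul_cancel₀ WithZero.exp_ne_zero
  -- Claim B
  have hB : ball k' 0 = (ball k' (-(r : ℤ))).map (AddMonoidHom.mulLeft g) := by
    rw [map_mulLeft_ball hvg]
    simp
  -- Claim C
  have hC : Z₁ = (ball k 0).map (i : k →+ k') ⊔ ball k' (-(r : ℤ)) := by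
    apply le_antisymm
    · rintro y ⟨hy1, hy2⟩
      have hy1' : Valued.v (s y - y) ≤ WithZero.exp (-(r : ℤ)) := by
        have : Valued.v (s y - 1 * y) ≤ WithZero.exp (-(r : ℤ)) := hy1
        rwa [one_mul] at this
      have hy2' : Valued.v y ≤ 1 := by simpa [mem_ball] using hy2
      obtain ⟨a, ha, hya⟩ := hfix k k' q l i s hk hk' hext r y hy2' hy1'
      rw [AddSubgroup.mem_sup]
      refine ⟨i a, ⟨a, by simpa [mem_ball] using ha, rfl⟩, y - i a, hya, by ring⟩
    · refine sup_le ?_ ?_
      · rintro _ ⟨a, ha, rfl⟩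
        have ha' : Valued.v a ≤ 1 := by simpa [mem_ball] using ha
        refine ⟨?_, ?_⟩
        · change Valued.v (s (i a) - 1 * i a) ≤ WithZero.exp (-(r : ℤ))
          have : s (i a) = i a := hext.cyc.fix_i a
          simp [this]
        · change Valued.v (i a) ≤ WithZero.exp 0
          rw [v_i hext, WithZero.exp_zero]; exact ha'
      · intro y hy
        have hy' : Valued.v y ≤ WithZero.exp (-(r : ℤ)) := hy
        refine ⟨?_, ?_⟩
        · change Valued.v (s y - 1 * y) ≤ WithZero.exp (-(r : ℤ))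
          rw [one_mul]
          refine le_trans (Valuation.map_sub _ _ _) (max_le ?_ hy')
          rw [hext.val_s]; exact hy'
        · exact ball_mono (by omega) hy
  -- the intersection
  have hD : ball k' (-(r : ℤ)) ⊓ (ball k 0).map (i : k →+ k')
      = (ball k (-(r : ℤ))).map (i : k →+ k') := by
    ext y
    constructor
    · rintro ⟨hy, a, ha, rfl⟩
      refine ⟨a, ?_, rfl⟩
      have : Valued.v (i a) ≤ WithZero.exp (-(r : ℤ)) := hy
      rwa [v_i hext] at this
    · rintro ⟨a, ha, rfl⟩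
      have ha' : Valued.v a ≤ WithZero.exp (-(r : ℤ)) := ha
      refine ⟨?_, a, ball_mono (by omega) ha, rfl⟩
      change Valued.v (i a) ≤ WithZero.exp (-(r : ℤ))
      rw [v_i hext]; exact ha'
  have hinj : Function.Injective (i : k →+ k') := i.injective
  calc (ball k' 0).relIndex (twistBall s c 0)
      = ((ball k' (-(r : ℤ))).map (AddMonoidHom.mulLeft g)).relIndex
          (Z₁.map (AddMonoidHom.mulLeft g)) := by rw [← hA, ← hB]
    _ = (ball k' (-(r : ℤ))).relIndex Z₁ :=
        AddSubgroup.relIndex_map_map_of_injective _ _ (mulLeft_injective hg0)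
    _ = (ball k' (-(r : ℤ))).relIndex ((ball k 0).map (i : k →+ k')) := by
        rw [hC, AddSubgroup.relIndex_sup_right]
    _ = ((ball k (-(r : ℤ))).map (i : k →+ k')).relIndex ((ball k 0).map (i : k →+ k')) := by
        rw [← hD, AddSubgroup.inf_relIndex_right]
    _ = (ball k (-(r : ℤ))).relIndex (ball k 0) :=
        AddSubgroup.relIndex_map_map_of_injective _ _ hinj
    _ = q ^ r := by
        rw [hball k q hk 0 (-(r : ℤ)) (by omega)]
        congr 1
        omega

end Fermat.Agent.LT.T6.H288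

end
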